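import Fermat.Agent.JN.Rep

/-!
# S25, block N: fibrewise algebraic equivalence to zero and the connected component of zero
-/

set_option autoImplicit false

universe u

open CategoryTheory CategoryTheory.Limits AlgebraicGeometry AlgebraicGeometry.RelPicard
  NeronModelInfra GoodReductionJacobian

noncomputable section

namespace Fermat.Agent.JN

variable {D : H1Data.{u}} {k : Type u} [Field k] {C : Scheme.{u}}
  {c : C ⟶ Spec (CommRingCat.of k)} {ε : SchemeHomOver (𝟙 (Spec (CommRingCat.of k))) c}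
  {J : Scheme.{u}} {p : J ⟶ Spec (CommRingCat.of k)} (r : Rep D c ε p)

/-- the image of a connected space meeting a clopen subset lies in it -/
theorem mem_of_connected {T X : Scheme.{u}} [ConnectedSpace T] (g : T ⟶ X) (U : X.Opens)
    (hU : IsClosed (U : Set X)) {x₀ : T} (h : g x₀ ∈ U) (x : T) : g x ∈ U := by
  have h1 : IsClopen (g ⁻¹' (U : Set X)) :=
    ⟨hU.preimage g.continuous, U.isOpen.preimage g.continuous⟩
  have h2 := h1.eq_univ ⟨x₀, h⟩
  have : x ∈ g ⁻¹' (U : Set X) := by rw [h2]; trivial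
  exact this

section Fibre

variable {T : Scheme.{u}} {t : T ⟶ Spec (CommRingCat.of k)} {K : Type u} [Field K]
  (s : Spec (CommRingCat.of K) ⟶ T)

variable (c t)

/-- `C_T ×_T K → C` -/
def fibToC : pullback (pullback.snd c t) s ⟶ C :=
  pullback.fst (pullback.snd c t) s ≫ pullback.fst c t

theorem fibToC_comp : fibToC c t s ≫ c = fibreAt c t s ≫ s ≫ t := by
  rw [fibToC, Category.assoc, pullback.condition, ← Category.assoc, pullback.condition,
    Category.assoc]
  rfl

theorem fib_fst : pullback.fst (pullback.snd c t) s =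
    pullback.lift (fibToC c t s) (fibreAt c t s ≫ s) (by rw [fibToC_comp, Category.assoc]) := by
  apply pullback.hom_ext
  · rw [pullback.lift_fst]; rfl
  · rw [pullback.lift_snd]; exact pullback.condition

variable {c t}

/-- `C × T' → (C_T ×_T K) ×_K T'` -/
def theta {T' : Scheme.{u}} (h : T' ⟶ Spec (CommRingCat.of K)) :
    pullback c (h ≫ s ≫ t) ⟶ pullback (fibreAt c t s) h :=
  pullback.lift
    (pullback.lift
      (pullback.lift (pullback.fst c (h ≫ s ≫ t)) (pullback.snd c (h ≫ s ≫ t) ≫ h ≫ s) (by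
        rw [pullback.condition, Category.assoc, Category.assoc]))
      (pullback.snd c (h ≫ s ≫ t) ≫ h) (by rw [pullback.lift_snd, Category.assoc]))
    (pullback.snd c (h ≫ s ≫ t)) (pullback.lift_snd _ _ _)

theorem theta_fibToC {T' : Scheme.{u}} (h : T' ⟶ Spec (CommRingCat.of K)) :
    theta s h ≫ pullback.fst (fibreAt c t s) h ≫ fibToC c t s = pullback.fst c (h ≫ s ≫ t) := by
  rw [theta, fibToC, pullback.lift_fst_assoc, pullback.lift_fst_assoc, pullback.lift_fst]

theorem theta_fst_fst {T' : Scheme.{u}} (h : T' ⟶ Spec (CommRingCat.of K)) :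
    theta s h ≫ pullback.fst (fibreAt c t s) h ≫ pullback.fst (pullback.snd c t) s =
      baseChangeSnd c (⟨h ≫ s, Category.assoc _ _ _⟩ : SchemeHomOver (h ≫ s ≫ t) t) := by
  apply pullback.hom_ext
  · rw [theta, pullback.lift_fst_assoc, pullback.lift_fst, pullback.lift_fst, baseChangeSnd,
      pullback.lift_fst, Category.comp_id]
  · rw [theta, pullback.lift_fst_assoc, pullback.lift_fst, pullback.lift_snd, baseChangeSnd,
      pullback.lift_snd]

theorem theta_natural {T' T'' : Scheme.{u}} (h : T' ⟶ Spec (CommRingCat.of K))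
    (h' : T'' ⟶ Spec (CommRingCat.of K)) (q : SchemeHomOver h' h)
    (hq : q.1 ≫ h ≫ s ≫ t = h' ≫ s ≫ t) :
    baseChangeSnd c (⟨q.1, hq⟩ : SchemeHomOver (h' ≫ s ≫ t) (h ≫ s ≫ t)) ≫ theta s h =
      theta s h' ≫ baseChangeSnd (fibreAt c t s) q := by
  have hq' : q.1 ≫ h = h' := q.2
  apply pullback.hom_ext
  · apply pullback.hom_ext
    · apply pullback.hom_ext
      · simp only [theta, baseChangeSnd, Category.assoc, pullback.lift_fst, Category.comp_id]
      · simp only [theta, baseChangeSnd, Category.assoc, pullback.lift_fst, pullback.lift_snd,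
          pullback.lift_snd_assoc, Category.comp_id]
        rw [← Category.assoc q.1, hq']
    · simp only [theta, baseChangeSnd, Category.assoc, pullback.lift_fst, pullback.lift_snd,
        pullback.lift_snd_assoc, Category.comp_id]
      rw [hq']
  · simp only [theta, baseChangeSnd, Category.assoc, pullback.lift_snd, pullback.lift_snd_assoc]

end Fibre

section AE1

variable {T : Scheme.{u}} {t : T ⟶ Spec (CommRingCat.of k)}

theorem exists_algClosed (κ : Type u) [Field κ] : ∃ (K : Type u) (_ : Field K)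
    (_ : IsAlgClosed K), Nonempty (κ →+* K) :=
  ⟨AlgebraicClosure κ, inferInstance, inferInstance, ⟨algebraMap κ _⟩⟩

/-- geometric points -/
theorem exists_geomPoint (T : Scheme.{u}) (x : T) : ∃ (K : Type u) (_ : Field K)
    (_ : IsAlgClosed K) (s : Spec (CommRingCat.of K) ⟶ T) (pt : Spec (CommRingCat.of K)),
    s pt = x := by
  obtain ⟨K, i1, i2, ⟨φ⟩⟩ := exists_algClosed (T.residueField x)
  let f : T.residueField x ⟶ CommRingCat.of K := CommRingCat.ofHom φ
  refine ⟨K, i1, i2, Spec.map f ≫ T.fromSpecResidueField x, IsLocalRing.closedPoint _, ?_⟩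
  rw [Scheme.Hom.comp_apply]
  exact Scheme.fromSpecResidueField_apply _ _

/-- a bundle which is fibrewise algebraically equivalent to zero gives a morphism to the
connected component of zero -/
theorem mem_of_algEquivZero (M : RigidifiedLineBundle c ε t) (hM : FibrewiseAlgEquivZero M)
    (g : SchemeHomOver t p) (hg : r.cls g = D.clR M) (U : J.Opens) (hU : IsClosed (U : Set J))
    (h0 : ∀ x, r.zero.1 x ∈ U) (x : T) : g.1 x ∈ U := by
  obtain ⟨K, _, _, s, pt, hx⟩ := exists_geomPoint T x
  obtain ⟨T', h, hft, hgi, M', hM', t₀, t₁, ⟨e₀⟩, ⟨e₁⟩⟩ := hM K s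
  have hint : IsIntegral T' := GeometricallyIntegral.isIntegral_of_subsingleton h
  let h1 : D.H (pullback c (h ≫ s ≫ t)) := D.map (theta s h) (D.cl M' hM')
  let G : SchemeHomOver (h ≫ s ≫ t) p := r.hom (H1Data.isRig_rigidify (ε := ε) _ h1)
  have hG : r.cls G = H1Data.rigidify ε _ h1 := r.cls_hom _
  have key : ∀ (τ : SchemeHomOver (𝟙 (Spec (CommRingCat.of K))) h)
      (hτ : τ.1 ≫ h ≫ s ≫ t = 𝟙 _ ≫ s ≫ t),
      r.cls (postComp G (⟨τ.1, hτ⟩ : SchemeHomOver (𝟙 _ ≫ s ≫ t) (h ≫ s ≫ t))) =
        H1Data.rigidify ε _ (D.map (theta s (𝟙 _))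
          (D.map (baseChangeSnd (fibreAt c t s) τ) (D.cl M' hM'))) := by
    intro τ hτ
    rw [r.cls_comp, hG, H1Data.map_rigidify, ← D.map_comp, ← D.map_comp, theta_natural]
  have hq : ∀ τ : SchemeHomOver (𝟙 (Spec (CommRingCat.of K))) h,
      τ.1 ≫ h ≫ s ≫ t = 𝟙 _ ≫ s ≫ t := fun τ => by
    rw [← Category.assoc, τ.2]
  -- the point `t₀`
  have hc0 : r.cls (postComp G (⟨t₀.1, hq t₀⟩ : SchemeHomOver (𝟙 _ ≫ s ≫ t) (h ≫ s ≫ t))) =
      1 := by
    rw [key, ← D.cl_pullback _ _ hM', (D.cl_eq_iff _ _ _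
      (Scheme.Modules.isInvertible_unit _)).mpr ⟨e₀⟩, D.cl_unit, _root_.map_one, H1Data.rigidify_of_isRig (H1Data.IsRig.one _)]
  have hG0 : G.1 (t₀.1 pt) ∈ U := by
    have h2 : postComp G (⟨t₀.1, hq t₀⟩ : SchemeHomOver (𝟙 _ ≫ s ≫ t) (h ≫ s ≫ t)) =
        r.groupLaw.one _ := r.cls_injective (hc0.trans (r.cls_one _).symm)
    have h3 : t₀.1 ≫ G.1 = (𝟙 _ ≫ s ≫ t) ≫ r.zero.1 := by
      rw [← r.one_eq, ← h2]; rfl
    have h4 : G.1 (t₀.1 pt) = r.zero.1 ((𝟙 _ ≫ s ≫ t) pt) := by
      have := congrArg (fun f : Spec (CommRingCat.of K) ⟶ J => f pt) h3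
      exact this
    rw [h4]
    exact h0 _
  -- the point `t₁`
  have hc1 : r.cls (postComp G (⟨t₁.1, hq t₁⟩ : SchemeHomOver (𝟙 _ ≫ s ≫ t) (h ≫ s ≫ t))) =
      r.cls (postComp g (⟨𝟙 _ ≫ s, Category.assoc _ _ _⟩ : SchemeHomOver (𝟙 _ ≫ s ≫ t) t)) := by
    rw [key, ← D.cl_pullback _ _ hM', (D.cl_eq_iff _ _ _
      ((M.isInvertible.pullback _).pullback _)).mpr ⟨e₁⟩,
      D.cl_pullback _ _ (M.isInvertible.pullback _), D.cl_pullback _ _ M.isInvertible,
      ← D.map_comp, ← D.map_comp, Category.assoc, theta_fst_fst, r.cls_comp, hg]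
    exact H1Data.rigidify_of_isRig ((H1Data.isRig_clR M).map _)
  have h2 := r.cls_injective hc1
  have h3 : t₁.1 ≫ G.1 = (𝟙 _ ≫ s) ≫ g.1 := congrArg Subtype.val h2
  have h4 : G.1 (t₁.1 pt) = g.1 ((𝟙 _ ≫ s) pt) := by
    have := congrArg (fun f : Spec (CommRingCat.of K) ⟶ J => f pt) h3
    exact this
  have h5 : (𝟙 _ ≫ s) pt = x := by rw [Category.id_comp]; exact hx
  rw [h5] at h4
  rw [← h4]
  exact mem_of_connected G.1 U hU hG0 _

end AE1

section AE2

variable {T : Scheme.{u}} {t : T ⟶ Spec (CommRingCat.of k)}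

/-- conversely, a morphism to a geometrically integral open subscheme containing zero gives a
bundle which is fibrewise algebraically equivalent to zero -/
theorem algEquivZero_of_mem (M : RigidifiedLineBundle c ε t) (g : SchemeHomOver t p)
    (hg : r.cls g = D.clR M) {U : Scheme.{u}} (i : U ⟶ J) [LocallyOfFiniteType (i ≫ p)]
    [GeometricallyIntegral (i ≫ p)] (z : Spec (CommRingCat.of k) ⟶ U) (hz : z ≫ i = r.zero.1)
    (w : T ⟶ U) (hw : w ≫ i = g.1) : FibrewiseAlgEquivZero M := by
  intro K _ _ s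
  let h : pullback (i ≫ p) (s ≫ t) ⟶ Spec (CommRingCat.of K) := pullback.snd _ _
  have hgp : g.1 ≫ p = t := g.2
  have hzp : r.zero.1 ≫ p = 𝟙 _ := r.zero.2
  let Ψ : pullback (fibreAt c t s) h ⟶ pullback c p :=
    pullback.lift (pullback.fst _ _ ≫ fibToC c t s)
      (pullback.snd _ _ ≫ pullback.fst (i ≫ p) (s ≫ t) ≫ i) (by
        rw [Category.assoc, fibToC_comp, ← Category.assoc, pullback.condition, Category.assoc,
          Category.assoc, Category.assoc, pullback.condition])
  obtain ⟨M', hM', hcl⟩ := D.exists_cl (D.map Ψ r.univ)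
  have hΨ : ∀ (τ : SchemeHomOver (𝟙 (Spec (CommRingCat.of K))) h) (v : Spec (CommRingCat.of K) ⟶ J)
      (hv : τ.1 ≫ pullback.fst (i ≫ p) (s ≫ t) ≫ i = v) (hv' : v ≫ p = s ≫ t),
      baseChangeSnd (fibreAt c t s) τ ≫ Ψ = pullback.lift
        (pullback.fst (fibreAt c t s) (𝟙 _) ≫ fibToC c t s)
        (pullback.snd (fibreAt c t s) (𝟙 _) ≫ v) (by
          rw [Category.assoc, fibToC_comp, ← Category.assoc, pullback.condition, Category.comp_id,
            Category.assoc, hv']) := by
    intro τ v hv hv'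
    apply pullback.hom_ext
    · simp only [Ψ, baseChangeSnd, Category.assoc, pullback.lift_fst, pullback.lift_fst_assoc,
        Category.comp_id]
    · simp only [Ψ, baseChangeSnd, Category.assoc, pullback.lift_snd, pullback.lift_snd_assoc]
      rw [hv]
  let t₀ : SchemeHomOver (𝟙 (Spec (CommRingCat.of K))) h :=
    ⟨pullback.lift ((s ≫ t) ≫ z) (𝟙 _) (by
      rw [Category.assoc, ← Category.assoc z, hz, hzp, Category.comp_id, Category.id_comp]),
      pullback.lift_snd _ _ _⟩
  let t₁ : SchemeHomOver (𝟙 (Spec (CommRingCat.of K))) h :=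
    ⟨pullback.lift (s ≫ w) (𝟙 _) (by
      rw [Category.assoc, ← Category.assoc w, hw, hgp, Category.id_comp]),
      pullback.lift_snd _ _ _⟩
  have hT0 := hΨ t₀ ((s ≫ t) ≫ r.zero.1) (by
    simp only [t₀, pullback.lift_fst_assoc, Category.assoc, hz]) (by
    rw [Category.assoc, hzp, Category.comp_id])
  have hT1 := hΨ t₁ (s ≫ g.1) (by
    simp only [t₁, pullback.lift_fst_assoc, Category.assoc, hw]) (by
    rw [Category.assoc, hgp])
  refine ⟨_, h, inferInstance, inferInstance, M', hM', t₀, t₁, ?_, ?_⟩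
  · rw [← D.cl_eq_iff _ _ (hM'.pullback _) (Scheme.Modules.isInvertible_unit _),
      D.cl_pullback _ _ hM', D.cl_unit, hcl, ← D.map_comp, hT0]
    have h1 : pullback.lift (pullback.fst (fibreAt c t s) (𝟙 _) ≫ fibToC c t s)
        (pullback.snd (fibreAt c t s) (𝟙 _) ≫ (s ≫ t) ≫ r.zero.1) (by
          rw [Category.assoc, fibToC_comp, ← Category.assoc, pullback.condition, Category.comp_id,
            Category.assoc, Category.assoc, hzp, Category.comp_id]) =
        pullback.lift (pullback.fst (fibreAt c t s) (𝟙 _) ≫ fibToC c t s)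
        (pullback.snd (fibreAt c t s) (𝟙 _) ≫ (s ≫ t)) (by
          rw [Category.assoc, fibToC_comp, ← Category.assoc, pullback.condition, Category.comp_id,
            Category.comp_id]) ≫ baseChangeSnd c r.zero := by
      apply pullback.hom_ext
      · simp only [baseChangeSnd, Category.assoc, pullback.lift_fst, Category.comp_id]
      · simp only [baseChangeSnd, Category.assoc, pullback.lift_snd, pullback.lift_snd_assoc]
    rw [h1, D.map_comp]
    have h2 : D.map (baseChangeSnd c r.zero) r.univ = 1 := r.cls_zero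
    rw [h2, _root_.map_one]
  · rw [← D.cl_eq_iff _ _ (hM'.pullback _) ((M.isInvertible.pullback _).pullback _),
      D.cl_pullback _ _ hM', D.cl_pullback _ _ (M.isInvertible.pullback _),
      D.cl_pullback _ _ M.isInvertible, hcl, ← D.map_comp, hT1]
    have h1 : pullback.lift (pullback.fst (fibreAt c t s) (𝟙 _) ≫ fibToC c t s)
        (pullback.snd (fibreAt c t s) (𝟙 _) ≫ s ≫ g.1) (by
          rw [Category.assoc, fibToC_comp, ← Category.assoc, pullback.condition, Category.comp_id,
            Category.assoc, Category.assoc, hgp]) =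
        pullback.fst (fibreAt c t s) (𝟙 _) ≫ pullback.fst (pullback.snd c t) s ≫
          baseChangeSnd c g := by
      apply pullback.hom_ext
      · simp only [baseChangeSnd, Category.assoc, pullback.lift_fst, Category.comp_id]
        rfl
      · simp only [baseChangeSnd, Category.assoc, pullback.lift_snd]
        rw [← Category.assoc (pullback.fst (pullback.snd c t) s), pullback.condition,
          ← Category.assoc, ← Category.assoc, ← Category.assoc]
        congr 2
        exact (pullback.condition.trans (Category.comp_id _)).symm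
    rw [h1, D.map_comp, D.map_comp]
    congr 2

end AE2

end Fermat.Agent.JN

end
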