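import Mathlib
import Fermat.Prelude.Def_AlgebraicGeometry_RelPicardAlgEquivZeroCut
import Fermat.Prelude.Def_AlgebraicGeometry_RepresentsRelSubPic
import Fermat.Prelude.Def_JacJ1Iface

/-!
# S25, block N: abstract interface for the end game

`H1Data` is the interface of the Picard group of all schemes (a small commutative group, functorial),
together with the class of an invertible module. `Rep` says that a scheme `p : J ⟶ Spec k`
represents the full rigidified Picard functor.
-/

set_option autoImplicit false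

universe u

open CategoryTheory CategoryTheory.Limits AlgebraicGeometry AlgebraicGeometry.RelPicard
  NeronModelInfra GoodReductionJacobian

noncomputable section

namespace Fermat.Agent.JN

/-- functorial Picard groups, together with classes of invertible modules -/
structure H1Data where
  H : Scheme.{u} → Type u
  grp : ∀ X, CommGroup (H X)
  map : ∀ {X Y : Scheme.{u}} (_ : X ⟶ Y), H Y →* H X
  map_id : ∀ {X : Scheme.{u}} (h : H X), map (𝟙 X) h = h
  map_comp : ∀ {X Y Z : Scheme.{u}} (f : X ⟶ Y) (g : Y ⟶ Z) (h : H Z),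
    map (f ≫ g) h = map f (map g h)
  cl : ∀ {X : Scheme.{u}} (M : X.Modules), Scheme.Modules.IsInvertible M → H X
  cl_eq_iff : ∀ {X : Scheme.{u}} (M N : X.Modules) (hM : Scheme.Modules.IsInvertible M)
    (hN : Scheme.Modules.IsInvertible N), cl M hM = cl N hN ↔ Nonempty (M ≅ N)
  exists_cl : ∀ {X : Scheme.{u}} (h : H X), ∃ (M : X.Modules)
    (hM : Scheme.Modules.IsInvertible M), cl M hM = h
  cl_pullback : ∀ {X Y : Scheme.{u}} (f : X ⟶ Y) (M : Y.Modules)
    (hM : Scheme.Modules.IsInvertible M),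
    cl ((Scheme.Modules.pullback f).obj M) (hM.pullback f) = map f (cl M hM)
  cl_unit : ∀ X : Scheme.{u}, cl (SheafOfModules.unit X.ringCatSheaf)
    (Scheme.Modules.isInvertible_unit X) = 1

attribute [instance] H1Data.grp

variable (D : H1Data.{u}) {k : Type u} [Field k] {C : Scheme.{u}}
  (c : C ⟶ Spec (CommRingCat.of k)) (ε : SchemeHomOver (𝟙 (Spec (CommRingCat.of k))) c)

/-- a class on `C × T` is rigidified along `ε` -/
def H1Data.IsRig {T : Scheme.{u}} (t : T ⟶ Spec (CommRingCat.of k)) (h : D.H (pullback c t)) :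
    Prop := D.map (rigSection c t ε) h = 1

/-- `p : J ⟶ Spec k` represents the full rigidified Picard functor -/
structure Rep {J : Scheme.{u}} (p : J ⟶ Spec (CommRingCat.of k)) where
  univ : D.H (pullback c p)
  rig : D.IsRig c ε p univ
  ex : ∀ {T : Scheme.{u}} (t : T ⟶ Spec (CommRingCat.of k)) (h : D.H (pullback c t)),
    D.IsRig c ε t h → ∃! g : SchemeHomOver t p, D.map (baseChangeSnd c g) univ = h

namespace H1Data

variable {D c ε}

theorem IsRig.one {T : Scheme.{u}} (t : T ⟶ Spec (CommRingCat.of k)) : D.IsRig c ε t 1 :=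
  map_one _

theorem IsRig.mul {T : Scheme.{u}} {t : T ⟶ Spec (CommRingCat.of k)} {h h' : D.H (pullback c t)}
    (H : D.IsRig c ε t h) (H' : D.IsRig c ε t h') : D.IsRig c ε t (h * h') := by
  unfold IsRig at *
  rw [_root_.map_mul, H, H', one_mul]

theorem IsRig.inv {T : Scheme.{u}} {t : T ⟶ Spec (CommRingCat.of k)} {h : D.H (pullback c t)}
    (H : D.IsRig c ε t h) : D.IsRig c ε t h⁻¹ := by
  unfold IsRig at *
  rw [_root_.map_inv, H, inv_one]

theorem IsRig.map {T T' : Scheme.{u}} {t : T ⟶ Spec (CommRingCat.of k)}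
    {t' : T' ⟶ Spec (CommRingCat.of k)} {h : D.H (pullback c t)} (H : D.IsRig c ε t h)
    (g : SchemeHomOver t' t) : D.IsRig c ε t' (D.map (baseChangeSnd c g) h) := by
  unfold IsRig at *
  rw [← D.map_comp, rigSection_baseChangeSnd, D.map_comp, H, _root_.map_one]

variable (D) in
/-- the class of a rigidified line bundle -/
def clR {T : Scheme.{u}} {t : T ⟶ Spec (CommRingCat.of k)} (M : RigidifiedLineBundle c ε t) :
    D.H (pullback c t) := D.cl M.L M.isInvertible

theorem isRig_clR {T : Scheme.{u}} {t : T ⟶ Spec (CommRingCat.of k)}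
    (M : RigidifiedLineBundle c ε t) : D.IsRig c ε t (D.clR M) := by
  show D.map _ (D.cl _ _) = 1
  rw [← D.cl_pullback, ← D.cl_unit]
  exact (D.cl_eq_iff _ _ _ _).mpr M.rigidified

theorem clR_eq_iff {T : Scheme.{u}} {t : T ⟶ Spec (CommRingCat.of k)}
    (M M' : RigidifiedLineBundle c ε t) : D.clR M = D.clR M' ↔ Nonempty (M.L ≅ M'.L) :=
  D.cl_eq_iff _ _ _ _

theorem clR_pullbackAlong {T T' : Scheme.{u}} {t : T ⟶ Spec (CommRingCat.of k)}
    {t' : T' ⟶ Spec (CommRingCat.of k)} (M : RigidifiedLineBundle c ε t)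
    (g : SchemeHomOver t' t) : D.clR (M.pullbackAlong g) = D.map (baseChangeSnd c g) (D.clR M) :=
  D.cl_pullback _ _ _

theorem exists_clR {T : Scheme.{u}} {t : T ⟶ Spec (CommRingCat.of k)} {h : D.H (pullback c t)}
    (H : D.IsRig c ε t h) : ∃ M : RigidifiedLineBundle c ε t, D.clR M = h := by
  obtain ⟨M, hM, rfl⟩ := D.exists_cl h
  refine ⟨⟨M, hM, ?_⟩, rfl⟩
  rw [← D.cl_eq_iff _ _ (hM.pullback _) (Scheme.Modules.isInvertible_unit T), D.cl_pullback,
    D.cl_unit]
  exact H

/-- the canonical way of rigidifying a class -/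
def rigidify (ε : SchemeHomOver (𝟙 (Spec (CommRingCat.of k))) c) {T : Scheme.{u}}
    (t : T ⟶ Spec (CommRingCat.of k)) (h : D.H (pullback c t)) :
    D.H (pullback c t) := h * (D.map (pullback.snd c t ≫ rigSection c t ε) h)⁻¹

theorem rigSection_snd {T : Scheme.{u}} (t : T ⟶ Spec (CommRingCat.of k)) :
    rigSection c t ε ≫ pullback.snd c t = 𝟙 T := pullback.lift_snd _ _ _

theorem isRig_rigidify {T : Scheme.{u}} (t : T ⟶ Spec (CommRingCat.of k))
    (h : D.H (pullback c t)) : D.IsRig c ε t (rigidify ε t h) := by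
  show D.map _ _ = 1
  rw [rigidify, _root_.map_mul, _root_.map_inv, ← D.map_comp, ← Category.assoc, rigSection_snd,
    Category.id_comp, mul_inv_cancel]

theorem rigidify_of_isRig {T : Scheme.{u}} {t : T ⟶ Spec (CommRingCat.of k)}
    {h : D.H (pullback c t)} (H : D.IsRig c ε t h) : rigidify ε t h = h := by
  rw [rigidify, D.map_comp, H, _root_.map_one, inv_one, mul_one]

theorem map_rigidify {T T' : Scheme.{u}} {t : T ⟶ Spec (CommRingCat.of k)}
    {t' : T' ⟶ Spec (CommRingCat.of k)} (g : SchemeHomOver t' t) (h : D.H (pullback c t)) :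
    D.map (baseChangeSnd c g) (rigidify ε t h) = rigidify ε t' (D.map (baseChangeSnd c g) h) := by
  rw [rigidify, rigidify, _root_.map_mul, _root_.map_inv, ← D.map_comp, ← D.map_comp]
  have h1 : baseChangeSnd c g ≫ pullback.snd c t = pullback.snd c t' ≫ g.1 := by
    simp only [baseChangeSnd, pullback.lift_snd]
  congr 3
  rw [Category.assoc, rigSection_baseChangeSnd, ← Category.assoc, h1, Category.assoc]

end H1Data

end Fermat.Agent.JN

end
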