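import Fermat.Agent.JN.AE
import Fermat.Agent.JNa.QC
import Fermat.Agent.JNa.Comp

/-!
# S25, block N: the end game
-/

set_option autoImplicit false

universe u

open CategoryTheory CategoryTheory.Limits AlgebraicGeometry AlgebraicGeometry.RelPicard
  NeronModelInfra GoodReductionJacobian

noncomputable section

namespace Fermat.Agent.JN

open Fermat.Agent.JNa

/-- valuative criterion for a clopen subscheme -/
theorem valuativeCriterion_clopen {X S : Scheme.{u}} (p : X ⟶ S) (U : X.Opens)
    (hU : IsClosed (U : Set X)) (hE : ValuativeCriterion.Existence p)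
    (hQ : ValuativeCriterion.Uniqueness p) : ValuativeCriterion (U.ι ≫ p) := by
  rw [ValuativeCriterion.iff]
  constructor
  · intro V
    obtain ⟨R, K, i₁, i₂, hsq⟩ := V
    let V' : ValuativeCommSq p := ⟨R, K, i₁ ≫ U.ι, i₂, ⟨by rw [Category.assoc]; exact hsq.w⟩⟩
    obtain ⟨⟨l, h1, h2⟩⟩ := hE V'
    change Spec (CommRingCat.of R) ⟶ X at l
    change Spec.map (CommRingCat.ofHom (algebraMap R K)) ≫ l = i₁ ≫ U.ι at h1
    change l ≫ p = i₂ at h2
    have hmem : ∀ x, l x ∈ U := by
      let η : Spec (CommRingCat.of K) := IsLocalRing.closedPoint K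
      have h3 : l (Spec.map (CommRingCat.ofHom (algebraMap R K)) η) ∈ U := by
        have h4 : (Spec.map (CommRingCat.ofHom (algebraMap R K)) ≫ l) η = (i₁ ≫ U.ι) η :=
          congrArg (fun f : Spec (CommRingCat.of K) ⟶ X => f η) h1
        rw [Scheme.Hom.comp_apply, Scheme.Hom.comp_apply] at h4
        rw [h4]
        exact (i₁ η).2
      exact mem_of_isClopen l U hU _ h3
    refine ⟨⟨⟨liftU U l hmem, ?_, ?_⟩⟩⟩
    · rw [← cancel_mono U.ι, Category.assoc, liftU_ι]
      exact h1
    · rw [liftU_ι_assoc]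
      exact h2
  · intro V
    obtain ⟨R, K, i₁, i₂, hsq⟩ := V
    let V' : ValuativeCommSq p := ⟨R, K, i₁ ≫ U.ι, i₂, ⟨by rw [Category.assoc]; exact hsq.w⟩⟩
    have hs := hQ V'
    constructor
    rintro ⟨l, h1, h2⟩ ⟨l', h1', h2'⟩
    change Spec (CommRingCat.of R) ⟶ (U : Scheme) at l l'
    change Spec.map (CommRingCat.ofHom (algebraMap R K)) ≫ l = i₁ at h1
    change Spec.map (CommRingCat.ofHom (algebraMap R K)) ≫ l' = i₁ at h1'
    change l ≫ U.ι ≫ p = i₂ at h2
    change l' ≫ U.ι ≫ p = i₂ at h2'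
    let m : V'.commSq.LiftStruct := ⟨l ≫ U.ι, by
      show Spec.map _ ≫ l ≫ U.ι = i₁ ≫ U.ι
      rw [← Category.assoc, h1], by
      show (l ≫ U.ι) ≫ p = i₂
      rw [Category.assoc, h2]⟩
    let m' : V'.commSq.LiftStruct := ⟨l' ≫ U.ι, by
      show Spec.map _ ≫ l' ≫ U.ι = i₁ ≫ U.ι
      rw [← Category.assoc, h1'], by
      show (l' ≫ U.ι) ≫ p = i₂
      rw [Category.assoc, h2']⟩
    have hm : m = m' := Subsingleton.elim _ _
    have h3 : l ≫ U.ι = l' ≫ U.ι := congrArg CommSq.LiftStruct.l hm
    have h4 : l = l' := by rwa [cancel_mono] at h3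
    subst h4
    rfl

section Main

variable {D : H1Data.{u}} {k : Type u} [Field k] [IsAlgClosed k] {C : Scheme.{u}}
  {c : C ⟶ Spec (CommRingCat.of k)} {ε : SchemeHomOver (𝟙 (Spec (CommRingCat.of k))) c}
  {J : Scheme.{u}} {p : J ⟶ Spec (CommRingCat.of k)} (r : Rep D c ε p)

include r in
/-- The connected component of zero represents the bundles which are fibrewise algebraically
equivalent to zero. -/
theorem exists_of_rep [Smooth p] (hE : ValuativeCriterion.Existence p)
    (hQ : ValuativeCriterion.Uniqueness p) :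
    ∃ Des : RelativePic0Designation k c,
      Nonempty (RepresentsRelSubPic c ε (algEquivZeroCut c ε) Des) ∧
        Smooth Des.toBase ∧ IsProper Des.toBase ∧ GeometricallyConnected Des.toBase := by
  -- the connected component
  obtain ⟨U, hxU, hU, hint⟩ := exists_idComp p (r.zero.1 (IsLocalRing.closedPoint k))
  have h0 : ∀ x, r.zero.1 x ∈ U := fun x => by
    have : x = IsLocalRing.closedPoint k := Subsingleton.elim _ _
    rw [this]; exact hxU
  have hgeo : GeometricallyIntegral (U.ι ≫ p) := geometricallyIntegral_of_isAlgClosed _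
  have hsm : Smooth (U.ι ≫ p) := inferInstance
  have hlft : LocallyOfFiniteType (U.ι ≫ p) := inferInstance
  have hqc : QuasiCompact (U.ι ≫ p) := quasiCompact_of_groupLaw p r.groupLaw U hU h0
  have hnoe : IsLocallyNoetherian (U : Scheme) := by
    have : IsLocallyNoetherian (Spec (CommRingCat.of k)) := inferInstance
    exact LocallyOfFiniteType.isLocallyNoetherian (U.ι ≫ p)
  have hqs : QuasiSeparated (U.ι ≫ p) := inferInstance
  have hprop : IsProper (U.ι ≫ p) :=
    IsProper.of_valuativeCriterion _ (valuativeCriterion_clopen p U hU hE hQ)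
  have hgc : GeometricallyConnected (U.ι ≫ p) := by
    rw [GeometricallyConnected.eq_geometrically]
    intro K _ y Z fst snd hP
    have : IsIntegral Z := hgeo.geometrically_isIntegral y fst snd hP
    infer_instance
  -- the zero section
  let z : Spec (CommRingCat.of k) ⟶ (U : Scheme) := liftU U r.zero.1 h0
  have hz : z ≫ U.ι = r.zero.1 := liftU_ι U _ _
  let Des : RelativePic0Designation k c :=
    { P := U
      toBase := U.ι ≫ p
      zeroSection := z
      zeroSection_toBase := by rw [← Category.assoc, hz]; exact r.zero.2 }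
  -- the universal bundle
  let ι' : SchemeHomOver (U.ι ≫ p) p := ⟨U.ι, rfl⟩
  obtain ⟨Pc, hPc⟩ := H1Data.exists_clR (r.isRig_cls ι')
  have hPcm : FibrewiseAlgEquivZero Pc :=
    algEquivZero_of_mem r Pc ι' hPc.symm U.ι z hz (𝟙 _) (Category.id_comp _)
  -- classes of pull-backs of the universal bundle
  have hcls : ∀ {T : Scheme.{u}} (t : T ⟶ Spec (CommRingCat.of k))
      (g : SchemeHomOver t (U.ι ≫ p)), D.clR (Pc.pullbackAlong g) = r.cls (postComp ι' g) := by
    intro T t g
    rw [H1Data.clR_pullbackAlong, hPc, r.cls_comp]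
  refine ⟨Des, ⟨⟨Pc, hPcm, ?_, ?_⟩⟩, hsm, hprop, hgc⟩
  · intro T t M hM
    let G : SchemeHomOver t p := r.hom (H1Data.isRig_clR M)
    have hG : r.cls G = D.clR M := r.cls_hom _
    have hmem : ∀ x, G.1 x ∈ U := mem_of_algEquivZero r M hM G hG U hU h0
    let g : SchemeHomOver t (U.ι ≫ p) :=
      ⟨liftU U G.1 hmem, by rw [← Category.assoc, liftU_ι]; exact G.2⟩
    have hg : postComp ι' g = G := Subtype.ext (liftU_ι U G.1 hmem)
    refine ⟨g, ?_, ?_⟩
    · exact (H1Data.clR_eq_iff (D := D) _ _).mp (by rw [hcls, hg, hG])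
    · intro g' hg'
      have h1 : D.clR (Pc.pullbackAlong g') = D.clR M := (H1Data.clR_eq_iff _ _).mpr hg'
      rw [hcls, ← hG] at h1
      have h2 := r.cls_injective h1
      apply Subtype.ext
      have h3 : g'.1 ≫ U.ι = G.1 := congrArg Subtype.val h2
      rw [← cancel_mono U.ι, h3]
      exact (liftU_ι U G.1 hmem).symm
  · have h1 : D.clR (Pc.pullbackAlong ⟨Des.zeroSection, Des.zeroSection_toBase⟩) =
        D.clR (RigidifiedLineBundle.unit (c := c) (ε := ε) (𝟙 _)) := by
      rw [hcls]
      have h2 : postComp ι' (⟨Des.zeroSection, Des.zeroSection_toBase⟩ :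
          SchemeHomOver (𝟙 _) (U.ι ≫ p)) = r.zero := Subtype.ext hz
      rw [h2, r.cls_zero]
      exact (D.cl_unit _).symm
    exact (H1Data.clR_eq_iff _ _).mp h1

end Main

end Fermat.Agent.JN

end
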