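import Fermat.Agent.JN.Defs

/-!
# S25, block N: the group law of a scheme representing the rigidified Picard functor
-/

set_option autoImplicit false

universe u

open CategoryTheory CategoryTheory.Limits AlgebraicGeometry AlgebraicGeometry.RelPicard
  NeronModelInfra GoodReductionJacobian

noncomputable section

namespace Fermat.Agent.JN

variable {D : H1Data.{u}} {k : Type u} [Field k] {C : Scheme.{u}}
  {c : C ⟶ Spec (CommRingCat.of k)} {ε : SchemeHomOver (𝟙 (Spec (CommRingCat.of k))) c}
  {J : Scheme.{u}} {p : J ⟶ Spec (CommRingCat.of k)}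

namespace Rep

variable (r : Rep D c ε p)

/-- the class of a morphism to `J` -/
def cls {T : Scheme.{u}} {t : T ⟶ Spec (CommRingCat.of k)} (g : SchemeHomOver t p) :
    D.H (pullback c t) := D.map (baseChangeSnd c g) r.univ

theorem isRig_cls {T : Scheme.{u}} {t : T ⟶ Spec (CommRingCat.of k)} (g : SchemeHomOver t p) :
    D.IsRig c ε t (r.cls g) := r.rig.map g

theorem cls_comp {T T' : Scheme.{u}} {t : T ⟶ Spec (CommRingCat.of k)}
    {t' : T' ⟶ Spec (CommRingCat.of k)} (g : SchemeHomOver t p) (ψ : SchemeHomOver t' t) :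
    r.cls (postComp g ψ) = D.map (baseChangeSnd c ψ) (r.cls g) := by
  rw [cls, cls, ← D.map_comp, baseChangeSnd_comp]

/-- the morphism given by a class -/
def hom {T : Scheme.{u}} {t : T ⟶ Spec (CommRingCat.of k)} {h : D.H (pullback c t)}
    (H : D.IsRig c ε t h) : SchemeHomOver t p := (r.ex t h H).choose

@[simp] theorem cls_hom {T : Scheme.{u}} {t : T ⟶ Spec (CommRingCat.of k)}
    {h : D.H (pullback c t)} (H : D.IsRig c ε t h) : r.cls (r.hom H) = h :=
  (r.ex t h H).choose_spec.1

theorem cls_injective {T : Scheme.{u}} {t : T ⟶ Spec (CommRingCat.of k)}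
    {g g' : SchemeHomOver t p} (h : r.cls g = r.cls g') : g = g' :=
  (r.ex t _ (r.isRig_cls g')).unique h rfl

/-- the zero section -/
def zero : SchemeHomOver (𝟙 (Spec (CommRingCat.of k))) p := r.hom (H1Data.IsRig.one _)

theorem cls_zero : r.cls r.zero = 1 := r.cls_hom _

/-- the group law -/
def groupLaw : RelativeGroupLaw k p where
  mul t x y := r.hom ((r.isRig_cls x).mul (r.isRig_cls y))
  one t := r.hom (H1Data.IsRig.one t)
  inv t x := r.hom (r.isRig_cls x).inv
  mul_assoc t x y z := r.cls_injective (by simp [mul_assoc])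
  one_mul t x := r.cls_injective (by simp)
  mul_one t x := r.cls_injective (by simp)
  inv_mul_cancel t x := r.cls_injective (by simp)
  mul_natural t t' ψ hψ x y := r.cls_injective (by
    have h1 : ∀ z : SchemeHomOver t p, r.cls (schemeHomOverComp ψ hψ z) =
        D.map (baseChangeSnd c ⟨ψ, hψ⟩) (r.cls z) := fun z => r.cls_comp z ⟨ψ, hψ⟩
    rw [h1, cls_hom, cls_hom, _root_.map_mul, h1, h1])

theorem cls_mul {T : Scheme.{u}} (t : T ⟶ Spec (CommRingCat.of k)) (x y : SchemeHomOver t p) :
    r.cls (r.groupLaw.mul t x y) = r.cls x * r.cls y :=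
  r.cls_hom ((r.isRig_cls x).mul (r.isRig_cls y))

theorem cls_one {T : Scheme.{u}} (t : T ⟶ Spec (CommRingCat.of k)) :
    r.cls (r.groupLaw.one t) = 1 := r.cls_hom (H1Data.IsRig.one t)

theorem groupLaw_one : r.groupLaw.one (𝟙 _) = r.zero := rfl

theorem one_eq {T : Scheme.{u}} (t : T ⟶ Spec (CommRingCat.of k)) :
    (r.groupLaw.one t).1 = t ≫ r.zero.1 := by
  have h : r.groupLaw.one t = postComp r.zero ⟨t, Category.comp_id t⟩ := by
    apply r.cls_injective
    rw [cls_one, cls_comp, cls_zero, _root_.map_one]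
  rw [h]; rfl

end Rep

end Fermat.Agent.JN

end
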